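import Fermat.Agent.FF2.Level.PlacesGamZ
import Fermat.Agent.FF2.Move.Level

/-!
# FF2 / board node N9: the (LEVEL) bridge `GamZ ℓ ζ ≤ Move.levelSubgroup (padicPlace ℓ) E`

helper10's `Move.levelSubgroup A E` is the subgroup of `σ ∈ D_A` whose residual automorphism
fixes the finite set `E ⊆ k` pointwise; everything that holds "for `n ≫ 0`" is exported there as
`∃ E, ∀ σ ∈ levelSubgroup A E, …`.  helper5's `Base.GamZ ℓ ζ = D_P ⊓ Stab(ζ)`,
`P = padicPlace ℓ`, is the level group of the sink `Base.S19_of_chart`.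

* `exists_gamZ_le_levelSubgroup` : **N9** — for every finite `E` there are `m`, `ζ` with
  `ζ ^ m = 1`, `ℓ ∤ m` and `GamZ ℓ ζ ≤ levelSubgroup (padicPlace ℓ) E`;
* `exists_le_levelSubgroup` : the same for an arbitrary place `P` over `ℓ`, for the subgroup
  `D_P ⊓ Stab(ζ)`;
* `exists_gamZ_le_levelSubgroup_iUnion` : finitely many `E i` at once.
-/

set_option autoImplicit false
set_option linter.style.haveILetI false

open IsLocalRing Fermat.Agent.Val Fermat.Agent.S55 Fermat.Agent.FF2.Base Fermat.Agent.FF2.Move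

namespace Fermat.Agent.FF2.Level

local notation "Qb" => AlgebraicClosure ℚ
local notation "GQ" => (AlgebraicClosure ℚ ≃ₐ[ℚ] AlgebraicClosure ℚ)

/-- (LEVEL) bridge for an arbitrary place `P` of `ℚ̄` over `ℓ`. -/
theorem exists_le_levelSubgroup (P : ValuationSubring Qb) {ℓ : ℕ} [hℓ : Fact ℓ.Prime]
    (hP : P.LiesOverPrime ℓ) (E : Finset (ResidueField P)) :
    ∃ (m : ℕ) (ζ : Qb), ζ ^ m = 1 ∧ ¬ ℓ ∣ m ∧ IsPrimitiveRoot ζ m ∧
      P.decompositionSubgroup ℚ ⊓ MulAction.stabilizer GQ ζ ≤ levelSubgroup P E := by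
  obtain ⟨m, ζ, hm, hζ, h⟩ := exists_primitiveRoot_fixing_finset P hP E
  exact ⟨m, ζ, hζ.pow_eq_one, hm, hζ, fun σ hσ => ⟨hσ.1, h σ hσ.1 hσ.2⟩⟩

variable (ℓ : ℕ) [hℓ : Fact ℓ.Prime]

/-- **Board node N9.**  For every finite subset `E` of the residue field of `padicPlace ℓ` there is
a root of unity `ζ` of order `m` prime to `ℓ` with
`Base.GamZ ℓ ζ ≤ Move.levelSubgroup (padicPlace ℓ) E`. -/
theorem exists_gamZ_le_levelSubgroup (E : Finset (ResidueField (padicPlace ℓ))) :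
    ∃ (m : ℕ) (ζ : Qb), ζ ^ m = 1 ∧ ¬ ℓ ∣ m ∧ GamZ ℓ ζ ≤ levelSubgroup (padicPlace ℓ) E := by
  obtain ⟨m, ζ, h1, hm, -, h⟩ :=
    exists_le_levelSubgroup (padicPlace ℓ) (padicPlace_liesOverPrime (q := ℓ)) E
  exact ⟨m, ζ, h1, hm, h⟩

/-- N9 with `IsPrimitiveRoot ζ m` recorded. -/
theorem exists_gamZ_le_levelSubgroup' (E : Finset (ResidueField (padicPlace ℓ))) :
    ∃ (m : ℕ) (ζ : Qb), ζ ^ m = 1 ∧ ¬ ℓ ∣ m ∧ IsPrimitiveRoot ζ m ∧
      GamZ ℓ ζ ≤ levelSubgroup (padicPlace ℓ) E :=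
  exists_le_levelSubgroup (padicPlace ℓ) (padicPlace_liesOverPrime (q := ℓ)) E

/-- N9 for finitely many finite sets at once (the 'ONE `E` for all blocks' collector, on the
`ζ` side). -/
theorem exists_gamZ_le_levelSubgroup_iUnion {ι : Type*} [Finite ι]
    (E : ι → Finset (ResidueField (padicPlace ℓ))) :
    ∃ (m : ℕ) (ζ : Qb), ζ ^ m = 1 ∧ ¬ ℓ ∣ m ∧
      ∀ i, GamZ ℓ ζ ≤ levelSubgroup (padicPlace ℓ) (E i) := by
  classical
  haveI : Fintype ι := Fintype.ofFinite ι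
  obtain ⟨m, ζ, h1, hm, h⟩ := exists_gamZ_le_levelSubgroup ℓ (Finset.univ.biUnion E)
  refine ⟨m, ζ, h1, hm, fun i => h.trans (levelSubgroup_anti ?_)⟩
  exact Finset.subset_biUnion_of_mem E (Finset.mem_univ i)

end Fermat.Agent.FF2.Level
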