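import Fermat.Agent.FF2.Rat.Teichmuller
import Fermat.Agent.Val.GaussGalois
import Fermat.Agent.Val.ResidueFieldA

/-!
# FF2 / (LEVEL): from a finite subset of the residue field to a cyclotomic level

`P` a valuation subring of `ℚ̄` over `ℓ`, `k` its residue field (an algebraic closure of `𝔽_ℓ`),
`D_P` its decomposition group.  For a root of unity `ζ` of order prime to `ℓ` put
`Γ_ζ = {τ ∈ D_P | τ ζ = ζ}`.

* `exists_frobenius_pow_fixing` : finitely many elements of a field algebraic over `ZMod ℓ` are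
  fixed by a common power `x ↦ x ^ ℓ ^ n`, `0 < n`;
* `isPrimitiveRoot_residue` : the residue of a primitive `m`-th root of unity, `m` invertible in
  `k`, is a primitive `m`-th root of unity of `k`;
* `apply_eq_iff_decompResAut_eq` : for `τ ∈ D_P` and a root of unity `ζ` of order prime to `ℓ`,
  `τ ζ = ζ` iff `τ̄` fixes the residue of `ζ`;
* `apply_eq_iff_forall_frobenius_fixed` : for `ζ` primitive of order `ℓ ^ n - 1`,
  `τ ζ = ζ` iff `τ̄` is the identity on `𝔽_{ℓ^n} = {x | x ^ ℓ ^ n = x}`;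
* `exists_level` : **(LEVEL)** for a finite `E ⊆ k` and `m₀` prime to `ℓ` there are `0 < n` with
  `m₀ ∣ ℓ ^ n - 1` and a primitive `(ℓ ^ n - 1)`-th root of unity `ζ` such that every `τ ∈ Γ_ζ`
  fixes `E` pointwise;
* `exists_primitiveRoot_fixing`, `exists_primitiveRoot_fixing'` : the same in the two
  dialects `τ : D_P` / `σ ∈ D_P`, without `n`.
-/

set_option autoImplicit false
set_option linter.style.haveILetI false

open IsLocalRing

namespace Fermat.Agent.FF2.Level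

local notation "Qb" => AlgebraicClosure ℚ
local notation "GQ" => (AlgebraicClosure ℚ ≃ₐ[ℚ] AlgebraicClosure ℚ)

/-! ### Finite subsets of an algebraic extension of `𝔽_ℓ` -/

/-- If `x ^ q = x` then `x ^ q ^ j = x` for all `j`. -/
theorem pow_pow_eq_self {M : Type*} [Monoid M] {x : M} {q : ℕ} (h : x ^ q = x) (j : ℕ) :
    x ^ q ^ j = x := by
  induction j with
  | zero => simp
  | succ j ih => rw [pow_succ, pow_mul, ih, h]

/-- Finitely many elements of a field algebraic over `ZMod ℓ` are fixed by a common power of the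
Frobenius. -/
theorem exists_frobenius_pow_fixing {k : Type*} [Field k] {ℓ : ℕ} [Fact ℓ.Prime]
    [Algebra (ZMod ℓ) k] [Algebra.IsAlgebraic (ZMod ℓ) k] (E : Set k) (hE : E.Finite) :
    ∃ n : ℕ, 0 < n ∧ ∀ e ∈ E, e ^ ℓ ^ n = e := by
  classical
  haveI : Finite E := hE.to_subtype
  haveI hfd : FiniteDimensional (ZMod ℓ) (IntermediateField.adjoin (ZMod ℓ) E) :=
    IntermediateField.finiteDimensional_adjoin
      (fun x _ => (Algebra.IsAlgebraic.isAlgebraic (R := ZMod ℓ) x).isIntegral)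
  haveI : Finite (IntermediateField.adjoin (ZMod ℓ) E) := Module.finite_of_finite (ZMod ℓ)
  haveI : Fintype (IntermediateField.adjoin (ZMod ℓ) E) := Fintype.ofFinite _
  haveI hch : CharP (IntermediateField.adjoin (ZMod ℓ) E) ℓ := by
    rw [← Algebra.charP_iff (ZMod ℓ) (IntermediateField.adjoin (ZMod ℓ) E) ℓ]
    infer_instance
  obtain ⟨n, -, hcard⟩ := FiniteField.card (IntermediateField.adjoin (ZMod ℓ) E) ℓ
  refine ⟨n, n.pos, fun e he => ?_⟩
  set e' : IntermediateField.adjoin (ZMod ℓ) E :=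
    ⟨e, IntermediateField.subset_adjoin _ _ he⟩ with he'
  have h1 : e' ^ Fintype.card (IntermediateField.adjoin (ZMod ℓ) E) = e' :=
    FiniteField.pow_card e'
  rw [hcard] at h1
  have := congrArg (Subtype.val : IntermediateField.adjoin (ZMod ℓ) E → k) h1
  simpa using this

/-- `ℓ ∤ ℓ ^ n - 1` for `0 < n`. -/
theorem not_dvd_pow_sub_one {ℓ : ℕ} (hℓ : ℓ.Prime) {n : ℕ} (hn : 0 < n) : ¬ ℓ ∣ ℓ ^ n - 1 := by
  intro h
  have h1 : ℓ ∣ ℓ ^ n := dvd_pow_self ℓ hn.ne'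
  have hpos : 1 ≤ ℓ ^ n := Nat.one_le_pow _ _ hℓ.pos
  have h2 : ℓ ∣ ℓ ^ n - (ℓ ^ n - 1) := Nat.dvd_sub h1 h
  have h3 : ℓ ^ n - (ℓ ^ n - 1) = 1 := by omega
  rw [h3] at h2
  exact hℓ.one_lt.ne' (Nat.dvd_one.1 h2)

/-- For `m₀` prime to `ℓ`, `m₀ ∣ ℓ ^ (n * φ(m₀)) - 1`. -/
theorem dvd_pow_mul_totient_sub_one {ℓ : ℕ} (hℓ : ℓ.Prime) {m₀ : ℕ} (hm₀ : ¬ ℓ ∣ m₀) (n : ℕ) :
    m₀ ∣ ℓ ^ (n * m₀.totient) - 1 := by
  have hcop : Nat.Coprime ℓ m₀ := (Nat.Prime.coprime_iff_not_dvd hℓ).2 hm₀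
  have h1 : ℓ ^ m₀.totient ≡ 1 [MOD m₀] := Nat.ModEq.pow_totient hcop
  have h2 : ℓ ^ (n * m₀.totient) ≡ 1 [MOD m₀] := by
    rw [mul_comm, pow_mul]
    simpa using h1.pow n
  exact (Nat.modEq_iff_dvd' (Nat.one_le_pow _ _ hℓ.pos)).1 h2.symm

/-! ### Roots of unity and the residue field -/

section Residue

variable (P : ValuationSubring Qb)

/-- The residue of a primitive `m`-th root of unity, `m` invertible in the residue field, is a
primitive `m`-th root of unity. -/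
theorem isPrimitiveRoot_residue {m : ℕ} (hm : (m : ResidueField P) ≠ 0) {ζ : Qb}
    (hζ : IsPrimitiveRoot ζ m) (hζP : ζ ∈ P) :
    IsPrimitiveRoot (residue P ⟨ζ, hζP⟩) m := by
  have hm0 : m ≠ 0 := by rintro rfl; simp at hm
  set z : P := ⟨ζ, hζP⟩ with hz
  have hzpow : z ^ m = 1 := Subtype.ext (by simpa using hζ.pow_eq_one)
  refine IsPrimitiveRoot.mk_of_lt _ (Nat.pos_of_ne_zero hm0) ?_ ?_
  · rw [← map_pow, hzpow, map_one]
  · intro d hd hdm hpow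
    have h1 : (z ^ d) ^ m = 1 := by rw [← pow_mul, mul_comm, pow_mul, hzpow, one_pow]
    have h2 : (1 : P) ^ m = 1 := one_pow m
    have h3 : residue P (z ^ d) = residue P 1 := by rw [map_pow, hpow, map_one]
    have h4 := Rat.eq_of_residue_eq P hm h1 h2 h3
    have h5 : ζ ^ d = 1 := by
      have := congrArg Subtype.val h4
      simpa using this
    exact absurd (hζ.dvd_of_pow_eq_one d h5) (Nat.not_dvd_of_pos_of_lt hd hdm)

/-- For `τ` in the decomposition group and a root of unity `ζ` of order invertible in the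
residue field: `τ ζ = ζ` iff `τ̄` fixes the residue of `ζ`. -/
theorem apply_eq_iff_decompResAut_eq {m : ℕ} (hm : (m : ResidueField P) ≠ 0) {ζ : Qb}
    (hζ : ζ ^ m = 1) (hζP : ζ ∈ P) (τ : ↥(P.decompositionSubgroup ℚ)) :
    (τ : GQ) ζ = ζ ↔
      Val.decompResAut P τ (residue P ⟨ζ, hζP⟩) = residue P ⟨ζ, hζP⟩ := by
  set z : P := ⟨ζ, hζP⟩ with hz
  have hzpow : z ^ m = 1 := Subtype.ext (by simpa using hζ)
  rw [Val.decompResAut_residue]
  constructor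
  · intro h
    have : τ • z = z := Subtype.ext (by rw [Val.coe_decomp_smul]; exact h)
    rw [this]
  · intro h
    have h1 : (τ • z) ^ m = 1 := by rw [← smul_pow', hzpow, smul_one]
    have h3 := Rat.eq_of_residue_eq P hm h1 hzpow h
    have := congrArg (Subtype.val : P → Qb) h3
    rwa [Val.coe_decomp_smul] at this

variable {ℓ : ℕ} [hℓ : Fact ℓ.Prime]

/-- `ℓ ^ n - 1` is invertible in the residue field of a place over `ℓ`. -/
theorem natCast_pow_sub_one_ne_zero (hP : P.LiesOverPrime ℓ) {n : ℕ} (hn : 0 < n) :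
    ((ℓ ^ n - 1 : ℕ) : ResidueField P) ≠ 0 := by
  haveI : CharP (ResidueField P) ℓ := Val.charP_residueField_of_liesOverPrime P hP
  intro h
  exact not_dvd_pow_sub_one hℓ.out hn ((CharP.cast_eq_zero_iff (ResidueField P) ℓ _).1 h)

/-- For `ζ` primitive of order `ℓ ^ n - 1`: `τ ζ = ζ` iff `τ̄` is the identity on
`𝔽_{ℓ ^ n} = {x | x ^ ℓ ^ n = x}`. -/
theorem apply_eq_iff_forall_frobenius_fixed (hP : P.LiesOverPrime ℓ) {n : ℕ} (hn : 0 < n)
    {ζ : Qb} (hζ : IsPrimitiveRoot ζ (ℓ ^ n - 1)) (τ : ↥(P.decompositionSubgroup ℚ)) :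
    (τ : GQ) ζ = ζ ↔
      ∀ x : ResidueField P, x ^ ℓ ^ n = x → Val.decompResAut P τ x = x := by
  have hm := natCast_pow_sub_one_ne_zero P hP hn
  have hm0 : ℓ ^ n - 1 ≠ 0 := by rintro h; rw [h] at hm; simp at hm
  have hpos : 1 ≤ ℓ ^ n := Nat.one_le_pow _ _ hℓ.out.pos
  have hζP : ζ ∈ P := Rat.mem_of_pow_eq_one P hm0 hζ.pow_eq_one
  have hprim := isPrimitiveRoot_residue P hm hζ hζP
  rw [apply_eq_iff_decompResAut_eq P hm hζ.pow_eq_one hζP τ]
  constructor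
  · intro h x hx
    rcases eq_or_ne x 0 with rfl | hx0
    · exact map_zero _
    · have hx1 : x ^ (ℓ ^ n - 1) = 1 := by
        have h1 : x ^ (ℓ ^ n - 1) * x = 1 * x := by
          rw [← pow_succ, Nat.sub_add_cancel hpos, hx, one_mul]
        exact mul_right_cancel₀ hx0 h1
      haveI : NeZero (ℓ ^ n - 1) := ⟨hm0⟩
      obtain ⟨i, -, hi⟩ := hprim.eq_pow_of_pow_eq_one hx1
      rw [← hi, map_pow, h]
  · intro h
    apply h
    have h1 : residue P ⟨ζ, hζP⟩ ^ (ℓ ^ n - 1) = 1 := hprim.pow_eq_one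
    calc residue P ⟨ζ, hζP⟩ ^ ℓ ^ n
        = residue P ⟨ζ, hζP⟩ ^ (ℓ ^ n - 1 + 1) := by rw [Nat.sub_add_cancel hpos]
      _ = residue P ⟨ζ, hζP⟩ := by rw [pow_succ, h1, one_mul]

/-- **(LEVEL).**  For a finite subset `E` of the residue field of a place `P` of `ℚ̄` over `ℓ`
and an integer `m₀` prime to `ℓ` there are `0 < n` with `m₀ ∣ ℓ ^ n - 1` and a primitive
`(ℓ ^ n - 1)`-th root of unity `ζ` such that every `τ ∈ D_P` fixing `ζ` fixes `E` pointwise. -/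
theorem exists_level (hP : P.LiesOverPrime ℓ) (E : Set (ResidueField P)) (hE : E.Finite)
    (m₀ : ℕ) (hm₀ : ¬ ℓ ∣ m₀) :
    ∃ n : ℕ, 0 < n ∧ m₀ ∣ ℓ ^ n - 1 ∧ ∃ ζ : Qb, IsPrimitiveRoot ζ (ℓ ^ n - 1) ∧
      ∀ τ : ↥(P.decompositionSubgroup ℚ), (τ : GQ) ζ = ζ →
        ∀ e ∈ E, Val.decompResAut P τ e = e := by
  haveI : CharP (ResidueField P) ℓ := Val.charP_residueField_of_liesOverPrime P hP
  letI : Algebra (ZMod ℓ) (ResidueField P) := ZMod.algebra (ResidueField P) ℓ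
  haveI halg : Algebra.IsAlgebraic (ZMod ℓ) (ResidueField P) :=
    Val.isAlgebraic_residueField_algebraicClosure_rat P
  obtain ⟨n₁, hn₁, hE₁⟩ := exists_frobenius_pow_fixing (ℓ := ℓ) E hE
  have hm₀0 : m₀ ≠ 0 := fun h => hm₀ (h ▸ dvd_zero ℓ)
  have hφ : 0 < m₀.totient := Nat.totient_pos.2 (Nat.pos_of_ne_zero hm₀0)
  set n : ℕ := n₁ * m₀.totient with hn
  have hnpos : 0 < n := Nat.mul_pos hn₁ hφ
  have hE' : ∀ e ∈ E, e ^ ℓ ^ n = e := fun e he => by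
    rw [hn, pow_mul]
    exact pow_pow_eq_self (hE₁ e he) _
  have hm := natCast_pow_sub_one_ne_zero P hP hnpos
  have hm0 : ℓ ^ n - 1 ≠ 0 := by rintro h; rw [h] at hm; simp at hm
  haveI : NeZero ((ℓ ^ n - 1 : ℕ) : Qb) := ⟨Rat.natCast_ne_zero_of_residue P hm⟩
  haveI : NeZero (ℓ ^ n - 1) := ⟨hm0⟩
  haveI : HasEnoughRootsOfUnity Qb (ℓ ^ n - 1) := IsSepClosed.hasEnoughRootsOfUnity Qb _
  obtain ⟨ζ, hζ⟩ := HasEnoughRootsOfUnity.exists_primitiveRoot Qb (ℓ ^ n - 1)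
  refine ⟨n, hnpos, dvd_pow_mul_totient_sub_one hℓ.out hm₀ n₁, ζ, hζ, fun τ hτ e he => ?_⟩
  exact (apply_eq_iff_forall_frobenius_fixed P hP hnpos hζ τ).1 hτ e (hE' e he)

/-- **(LEVEL)**, short form, `τ : D_P` dialect (helper12's `gammaZeta P ζ`). -/
theorem exists_primitiveRoot_fixing (hP : P.LiesOverPrime ℓ) (E : Set (ResidueField P))
    (hE : E.Finite) :
    ∃ (m : ℕ) (ζ : Qb), ¬ ℓ ∣ m ∧ IsPrimitiveRoot ζ m ∧
      ∀ τ : ↥(P.decompositionSubgroup ℚ), (τ : GQ) ζ = ζ →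
        ∀ e ∈ E, Val.decompResAut P τ e = e := by
  obtain ⟨n, hn, -, ζ, hζ, h⟩ := exists_level P hP E hE 1 (by
    intro h; exact hℓ.out.one_lt.ne' (Nat.dvd_one.1 h))
  exact ⟨ℓ ^ n - 1, ζ, not_dvd_pow_sub_one hℓ.out hn, hζ, h⟩

/-- **(LEVEL)**, short form, `σ ∈ D_P` dialect. -/
theorem exists_primitiveRoot_fixing' (hP : P.LiesOverPrime ℓ) (E : Set (ResidueField P))
    (hE : E.Finite) :
    ∃ (m : ℕ) (ζ : Qb), ¬ ℓ ∣ m ∧ IsPrimitiveRoot ζ m ∧
      ∀ (σ : GQ) (hσ : σ ∈ P.decompositionSubgroup ℚ), σ ζ = ζ →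
        ∀ e ∈ E, Val.decompResAut P ⟨σ, hσ⟩ e = e := by
  obtain ⟨m, ζ, hm, hζ, h⟩ := exists_primitiveRoot_fixing P hP E hE
  exact ⟨m, ζ, hm, hζ, fun σ hσ hσζ e he => h ⟨σ, hσ⟩ hσζ e he⟩

/-- **(LEVEL)**, the owner's literal: `E : Finset k`, `σ ∈ D_P` dialect. -/
theorem exists_primitiveRoot_fixing_finset (hP : P.LiesOverPrime ℓ)
    (E : Finset (ResidueField P)) :
    ∃ (m : ℕ) (ζ : Qb), ¬ ℓ ∣ m ∧ IsPrimitiveRoot ζ m ∧
      ∀ (σ : GQ) (hσ : σ ∈ P.decompositionSubgroup ℚ), σ ζ = ζ →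
        ∀ e ∈ E, Val.decompResAut P ⟨σ, hσ⟩ e = e := by
  obtain ⟨m, ζ, hm, hζ, h⟩ := exists_primitiveRoot_fixing' P hP (E : Set (ResidueField P))
    E.finite_toSet
  exact ⟨m, ζ, hm, hζ, fun σ hσ hσζ e he => h σ hσ hσζ e (Finset.mem_coe.2 he)⟩

/-- **(LEVEL)** for finitely many finite sets at once. -/
theorem exists_primitiveRoot_fixing_iUnion (hP : P.LiesOverPrime ℓ) {ι : Type*} [Finite ι]
    (E : ι → Set (ResidueField P)) (hE : ∀ i, (E i).Finite) :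
    ∃ (m : ℕ) (ζ : Qb), ¬ ℓ ∣ m ∧ IsPrimitiveRoot ζ m ∧
      ∀ (σ : GQ) (hσ : σ ∈ P.decompositionSubgroup ℚ), σ ζ = ζ →
        ∀ i, ∀ e ∈ E i, Val.decompResAut P ⟨σ, hσ⟩ e = e := by
  obtain ⟨m, ζ, hm, hζ, h⟩ := exists_primitiveRoot_fixing' P hP (⋃ i, E i)
    (Set.finite_iUnion hE)
  exact ⟨m, ζ, hm, hζ, fun σ hσ hσζ i e he => h σ hσ hσζ e (Set.mem_iUnion.2 ⟨i, he⟩)⟩

end Residue

end Fermat.Agent.FF2.Level
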