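import Fermat.Agent.FF2.Level.Basic
import Fermat.Agent.Val.GaloisModL

/-!
# FF2 / (LEVEL-PLACES): from the `E`-form of open stabilisers to a cyclotomic level

`P` a valuation subring of `ℚ̄` over `ℓ`, `k` its residue field.  The (OPEN-STAB) node of the S19
board produces, for every place `Q` of the special fibre (or every point of `J̃`), a finite subset
`E_Q ⊆ k` such that every `σ ∈ D_P` whose residual automorphism fixes `E_Q` pointwise fixes `Q`
(`E`-form).  Combined with (LEVEL) this gives one root of unity `ζ` of order prime to `ℓ` such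
that `Γ_ζ = {σ ∈ D_P | σ ζ = ζ}` fixes finitely many prescribed objects and finitely many
prescribed elements of `k`.

* `exists_primitiveRoot_of_eform` : the abstract statement, for an arbitrary family of objects
  and an arbitrary "`τ` fixes `x`" predicate;
* `exists_primitiveRoot_fixing_places` : places of `F̃_N = modularFunctionFieldFullC k N` under
  `coeffAutC k N`;
* `exists_primitiveRoot_fixing_places_points` : places and points of `JZeroC k N` together.
-/

set_option autoImplicit false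
set_option linter.style.haveILetI false

open IsLocalRing AlgebraicCurve ModularCurve Fermat.Agent.Val Fermat.Agent.Val.GaloisModL

namespace Fermat.Agent.FF2.Level

local notation "Qb" => AlgebraicClosure ℚ
local notation "GQ" => (AlgebraicClosure ℚ ≃ₐ[ℚ] AlgebraicClosure ℚ)

set_option synthInstance.maxHeartbeats 400000
set_option maxHeartbeats 1000000

variable (P : ValuationSubring Qb) {ℓ : ℕ} [hℓ : Fact ℓ.Prime]

/-- **(LEVEL-PLACES), abstract form.**  `fixes τ x` is any predicate "the automorphism `τ` of the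
residue field fixes the object `x`".  If every object has a finite fixing set (`E`-form of
(OPEN-STAB)), then for finitely many objects `s` and finitely many elements `E₀` of the residue
field there is a primitive `m`-th root of unity `ζ`, `ℓ ∤ m`, such that every `σ ∈ D_P` with
`σ ζ = ζ` fixes all `x ∈ s` and all `e ∈ E₀`. -/
theorem exists_primitiveRoot_of_eform (hP : P.LiesOverPrime ℓ) {X : Type*}
    (fixes : (ResidueField P ≃+* ResidueField P) → X → Prop)
    (hE : ∀ x : X, ∃ E : Finset (ResidueField P),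
      ∀ (σ : GQ) (hσ : σ ∈ P.decompositionSubgroup ℚ),
        (∀ e ∈ E, decompResAut P ⟨σ, hσ⟩ e = e) → fixes (decompResAut P ⟨σ, hσ⟩) x)
    (s : Finset X) (E₀ : Finset (ResidueField P)) :
    ∃ (m : ℕ) (ζ : Qb), ζ ^ m = 1 ∧ ¬ ℓ ∣ m ∧ IsPrimitiveRoot ζ m ∧
      ∀ (σ : GQ) (hσ : σ ∈ P.decompositionSubgroup ℚ), σ ζ = ζ →
        (∀ x ∈ s, fixes (decompResAut P ⟨σ, hσ⟩) x) ∧
          ∀ e ∈ E₀, decompResAut P ⟨σ, hσ⟩ e = e := by
  classical
  choose Ef hEf using hE
  obtain ⟨m, ζ, hm, hζ, h⟩ := exists_primitiveRoot_fixing_finset P hP (E₀ ∪ s.biUnion Ef)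
  refine ⟨m, ζ, hζ.pow_eq_one, hm, hζ, fun σ hσ hσζ => ⟨fun x hx => ?_, fun e he => ?_⟩⟩
  · refine hEf x σ hσ fun e he => h σ hσ hσζ e ?_
    exact Finset.mem_union_right _ (Finset.mem_biUnion.2 ⟨x, hx, he⟩)
  · exact h σ hσ hσζ e (Finset.mem_union_left _ he)

/-- **(LEVEL-PLACES)** for places of the special fibre `F̃_N` under the coefficientwise action. -/
theorem exists_primitiveRoot_fixing_places (hP : P.LiesOverPrime ℓ) (N : ℕ) [NeZero N]
    (hE : ∀ Q : Place (ResidueField P) (modularFunctionFieldFullC (ResidueField P) N),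
      ∃ E : Finset (ResidueField P), ∀ (σ : GQ) (hσ : σ ∈ P.decompositionSubgroup ℚ),
        (∀ e ∈ E, decompResAut P ⟨σ, hσ⟩ e = e) →
          coeffAutC (ResidueField P) N (decompResAut P ⟨σ, hσ⟩) • Q = Q)
    (s : Finset (Place (ResidueField P) (modularFunctionFieldFullC (ResidueField P) N)))
    (E₀ : Finset (ResidueField P)) :
    ∃ (m : ℕ) (ζ : Qb), ζ ^ m = 1 ∧ ¬ ℓ ∣ m ∧ IsPrimitiveRoot ζ m ∧
      ∀ (σ : GQ) (hσ : σ ∈ P.decompositionSubgroup ℚ), σ ζ = ζ →
        (∀ Q ∈ s, coeffAutC (ResidueField P) N (decompResAut P ⟨σ, hσ⟩) • Q = Q) ∧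
          ∀ e ∈ E₀, decompResAut P ⟨σ, hσ⟩ e = e :=
  exists_primitiveRoot_of_eform P hP
    (fun τ Q => coeffAutC (ResidueField P) N τ • Q = Q) hE s E₀

/-- **(LEVEL-PLACES)** for places of `F̃_N` and points of `J̃ = JZeroC k N` together. -/
theorem exists_primitiveRoot_fixing_places_points (hP : P.LiesOverPrime ℓ) (N : ℕ) [NeZero N]
    (hE : ∀ Q : Place (ResidueField P) (modularFunctionFieldFullC (ResidueField P) N),
      ∃ E : Finset (ResidueField P), ∀ (σ : GQ) (hσ : σ ∈ P.decompositionSubgroup ℚ),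
        (∀ e ∈ E, decompResAut P ⟨σ, hσ⟩ e = e) →
          coeffAutC (ResidueField P) N (decompResAut P ⟨σ, hσ⟩) • Q = Q)
    (hEJ : ∀ y : JZeroC (ResidueField P) N,
      ∃ E : Finset (ResidueField P), ∀ (σ : GQ) (hσ : σ ∈ P.decompositionSubgroup ℚ),
        (∀ e ∈ E, decompResAut P ⟨σ, hσ⟩ e = e) →
          coeffAutC (ResidueField P) N (decompResAut P ⟨σ, hσ⟩) • y = y)
    (s : Finset (Place (ResidueField P) (modularFunctionFieldFullC (ResidueField P) N)))
    (t : Finset (JZeroC (ResidueField P) N)) (E₀ : Finset (ResidueField P)) :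
    ∃ (m : ℕ) (ζ : Qb), ζ ^ m = 1 ∧ ¬ ℓ ∣ m ∧ IsPrimitiveRoot ζ m ∧
      ∀ (σ : GQ) (hσ : σ ∈ P.decompositionSubgroup ℚ), σ ζ = ζ →
        (∀ Q ∈ s, coeffAutC (ResidueField P) N (decompResAut P ⟨σ, hσ⟩) • Q = Q) ∧
        (∀ y ∈ t, coeffAutC (ResidueField P) N (decompResAut P ⟨σ, hσ⟩) • y = y) ∧
          ∀ e ∈ E₀, decompResAut P ⟨σ, hσ⟩ e = e := by
  classical
  obtain ⟨m, ζ, h1, hm, hζ, h⟩ := exists_primitiveRoot_of_eform P hP
    (X := Place (ResidueField P) (modularFunctionFieldFullC (ResidueField P) N) ⊕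
      JZeroC (ResidueField P) N)
    (fun τ x => Sum.elim (fun Q => coeffAutC (ResidueField P) N τ • Q = Q)
      (fun y => coeffAutC (ResidueField P) N τ • y = y) x)
    (fun x => by
      rcases x with Q | y
      · exact hE Q
      · exact hEJ y)
    (s.map ⟨Sum.inl, Sum.inl_injective⟩ ∪ t.map ⟨Sum.inr, Sum.inr_injective⟩) E₀
  refine ⟨m, ζ, h1, hm, hζ, fun σ hσ hσζ => ⟨fun Q hQ => ?_, fun y hy => ?_, (h σ hσ hσζ).2⟩⟩
  · exact (h σ hσ hσζ).1 (Sum.inl Q)
      (Finset.mem_union_left _ (Finset.mem_map.2 ⟨Q, hQ, rfl⟩))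
  · exact (h σ hσ hσζ).1 (Sum.inr y)
      (Finset.mem_union_right _ (Finset.mem_map.2 ⟨y, hy, rfl⟩))

end Fermat.Agent.FF2.Level
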