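import Fermat.Agent.FF2.Level.Places
import Fermat.Agent.FF2.Base.LambdaZeta

/-!
# FF2 / (LEVEL-PLACES) in helper5's dialect (`Base.GamZ ℓ ζ`, `A = padicPlace ℓ`)

`Base.GamZ ℓ ζ = D_A ⊓ Stab(ζ)`, `A = padicPlace ℓ`.  From the `E`-form of (OPEN-STAB) as a
hypothesis: for finitely many places `s` of the special fibre and finitely many `E₀ ⊆ k` there
are `m`, `ζ` with `ζ ^ m = 1`, `ℓ ∤ m` such that every `σ ∈ GamZ ℓ ζ` fixes every `Q ∈ s` and
every `e ∈ E₀`.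

* `exists_GamZ_fixing_finset` : (LEVEL) itself in the `GamZ` dialect;
* `exists_GamZ_fixing_places` : (LEVEL-PLACES), the owner's literal (ASSIGNMENTS v1.3);
* `exists_GamZ_fixing_places_points` : the same with finitely many points of `JZeroC k N`;
* `exists_GamZ_of_eform` : abstract form.
-/

set_option autoImplicit false
set_option linter.style.haveILetI false

open IsLocalRing AlgebraicCurve ModularCurve Fermat.Agent.Val Fermat.Agent.Val.GaloisModL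
  Fermat.Agent.S55 Fermat.Agent.FF2.Base

namespace Fermat.Agent.FF2.Level

local notation "Qb" => AlgebraicClosure ℚ
local notation "GQ" => (AlgebraicClosure ℚ ≃ₐ[ℚ] AlgebraicClosure ℚ)

set_option synthInstance.maxHeartbeats 400000
set_option maxHeartbeats 1000000

variable (ℓ : ℕ) [hℓ : Fact ℓ.Prime]

/-- (LEVEL) in the `GamZ` dialect. -/
theorem exists_GamZ_fixing_finset (E₀ : Finset (ResidueField (padicPlace ℓ))) :
    ∃ (m : ℕ) (ζ : Qb), ζ ^ m = 1 ∧ ¬ ℓ ∣ m ∧ IsPrimitiveRoot ζ m ∧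
      ∀ (σ : GQ) (hσ : σ ∈ GamZ ℓ ζ),
        ∀ e ∈ E₀, decompResAut (padicPlace ℓ) ⟨σ, hσ.1⟩ e = e := by
  obtain ⟨m, ζ, hm, hζ, h⟩ :=
    exists_primitiveRoot_fixing_finset (padicPlace ℓ) (padicPlace_liesOverPrime (q := ℓ)) E₀
  exact ⟨m, ζ, hζ.pow_eq_one, hm, hζ, fun σ hσ e he => h σ hσ.1 hσ.2 e he⟩

/-- (LEVEL-PLACES), abstract form, in the `GamZ` dialect. -/
theorem exists_GamZ_of_eform {X : Type*}
    (fixes : (ResidueField (padicPlace ℓ) ≃+* ResidueField (padicPlace ℓ)) → X → Prop)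
    (hE : ∀ x : X, ∃ E : Finset (ResidueField (padicPlace ℓ)),
      ∀ (σ : GQ) (hσ : σ ∈ (padicPlace ℓ).decompositionSubgroup ℚ),
        (∀ e ∈ E, decompResAut (padicPlace ℓ) ⟨σ, hσ⟩ e = e) →
          fixes (decompResAut (padicPlace ℓ) ⟨σ, hσ⟩) x)
    (s : Finset X) (E₀ : Finset (ResidueField (padicPlace ℓ))) :
    ∃ (m : ℕ) (ζ : Qb), ζ ^ m = 1 ∧ ¬ ℓ ∣ m ∧ IsPrimitiveRoot ζ m ∧
      ∀ (σ : GQ) (hσ : σ ∈ GamZ ℓ ζ),
        (∀ x ∈ s, fixes (decompResAut (padicPlace ℓ) ⟨σ, hσ.1⟩) x) ∧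
          ∀ e ∈ E₀, decompResAut (padicPlace ℓ) ⟨σ, hσ.1⟩ e = e := by
  obtain ⟨m, ζ, h1, hm, hζ, h⟩ := exists_primitiveRoot_of_eform (padicPlace ℓ)
    (padicPlace_liesOverPrime (q := ℓ)) fixes hE s E₀
  exact ⟨m, ζ, h1, hm, hζ, fun σ hσ => h σ hσ.1 hσ.2⟩

/-- **(LEVEL-PLACES)**, the owner's literal: places of the special fibre. -/
theorem exists_GamZ_fixing_places (N : ℕ) [NeZero N]
    (hE : ∀ Q : Place (ResidueField (padicPlace ℓ))
        (modularFunctionFieldFullC (ResidueField (padicPlace ℓ)) N),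
      ∃ E : Finset (ResidueField (padicPlace ℓ)),
        ∀ (σ : GQ) (hσ : σ ∈ (padicPlace ℓ).decompositionSubgroup ℚ),
          (∀ e ∈ E, decompResAut (padicPlace ℓ) ⟨σ, hσ⟩ e = e) →
            coeffAutC (ResidueField (padicPlace ℓ)) N
              (decompResAut (padicPlace ℓ) ⟨σ, hσ⟩) • Q = Q)
    (s : Finset (Place (ResidueField (padicPlace ℓ))
      (modularFunctionFieldFullC (ResidueField (padicPlace ℓ)) N)))
    (E₀ : Finset (ResidueField (padicPlace ℓ))) :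
    ∃ (m : ℕ) (ζ : Qb), ζ ^ m = 1 ∧ ¬ ℓ ∣ m ∧ IsPrimitiveRoot ζ m ∧
      ∀ (σ : GQ) (hσ : σ ∈ GamZ ℓ ζ),
        (∀ Q ∈ s, coeffAutC (ResidueField (padicPlace ℓ)) N
          (decompResAut (padicPlace ℓ) ⟨σ, hσ.1⟩) • Q = Q) ∧
          ∀ e ∈ E₀, decompResAut (padicPlace ℓ) ⟨σ, hσ.1⟩ e = e := by
  obtain ⟨m, ζ, h1, hm, hζ, h⟩ := exists_primitiveRoot_fixing_places (padicPlace ℓ)
    (padicPlace_liesOverPrime (q := ℓ)) N hE s E₀
  exact ⟨m, ζ, h1, hm, hζ, fun σ hσ => h σ hσ.1 hσ.2⟩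

/-- **(LEVEL-PLACES)** with finitely many points of `JZeroC k N` as well. -/
theorem exists_GamZ_fixing_places_points (N : ℕ) [NeZero N]
    (hE : ∀ Q : Place (ResidueField (padicPlace ℓ))
        (modularFunctionFieldFullC (ResidueField (padicPlace ℓ)) N),
      ∃ E : Finset (ResidueField (padicPlace ℓ)),
        ∀ (σ : GQ) (hσ : σ ∈ (padicPlace ℓ).decompositionSubgroup ℚ),
          (∀ e ∈ E, decompResAut (padicPlace ℓ) ⟨σ, hσ⟩ e = e) →
            coeffAutC (ResidueField (padicPlace ℓ)) N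
              (decompResAut (padicPlace ℓ) ⟨σ, hσ⟩) • Q = Q)
    (hEJ : ∀ y : JZeroC (ResidueField (padicPlace ℓ)) N,
      ∃ E : Finset (ResidueField (padicPlace ℓ)),
        ∀ (σ : GQ) (hσ : σ ∈ (padicPlace ℓ).decompositionSubgroup ℚ),
          (∀ e ∈ E, decompResAut (padicPlace ℓ) ⟨σ, hσ⟩ e = e) →
            coeffAutC (ResidueField (padicPlace ℓ)) N
              (decompResAut (padicPlace ℓ) ⟨σ, hσ⟩) • y = y)
    (s : Finset (Place (ResidueField (padicPlace ℓ))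
      (modularFunctionFieldFullC (ResidueField (padicPlace ℓ)) N)))
    (t : Finset (JZeroC (ResidueField (padicPlace ℓ)) N))
    (E₀ : Finset (ResidueField (padicPlace ℓ))) :
    ∃ (m : ℕ) (ζ : Qb), ζ ^ m = 1 ∧ ¬ ℓ ∣ m ∧ IsPrimitiveRoot ζ m ∧
      ∀ (σ : GQ) (hσ : σ ∈ GamZ ℓ ζ),
        (∀ Q ∈ s, coeffAutC (ResidueField (padicPlace ℓ)) N
          (decompResAut (padicPlace ℓ) ⟨σ, hσ.1⟩) • Q = Q) ∧
        (∀ y ∈ t, coeffAutC (ResidueField (padicPlace ℓ)) N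
          (decompResAut (padicPlace ℓ) ⟨σ, hσ.1⟩) • y = y) ∧
          ∀ e ∈ E₀, decompResAut (padicPlace ℓ) ⟨σ, hσ.1⟩ e = e := by
  obtain ⟨m, ζ, h1, hm, hζ, h⟩ := exists_primitiveRoot_fixing_places_points (padicPlace ℓ)
    (padicPlace_liesOverPrime (q := ℓ)) N hE hEJ s t E₀
  exact ⟨m, ζ, h1, hm, hζ, fun σ hσ => h σ hσ.1 hσ.2⟩

end Fermat.Agent.FF2.Level
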